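import Mathlib
import Fermat.Agent.BR2.G5ModularFinal

/-!
# PROGRAMME I, block A (Step A = Dwork contraction): DEFINITIONS ONLY (sorry-free API file)

Contract D-A = findings #1734 / #1738.  Block owners import THIS file; the statements they owe are
listed (with `sorry` bodies) in `FF3/StepA/Contract.lean`.

* `normPhi φ`, `DworkData`, `IsCP` (Mathlib only);
* `Frame M q B hB L` with `Frame.eM`, `Frame.e2`, `Frame.Kc`, `Frame.N`, `Frame.theta`;
* `IsConstPow`, `IsTorSharp` (frame form of `tor#`), `ApproxPow`, `IsTorSharpApprox`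
  (frame-free form of `tor#`, what Step B consumes).
-/

set_option autoImplicit false
set_option linter.unusedSectionVars false
set_option synthInstance.maxHeartbeats 400000

noncomputable section

namespace Fermat.Agent.FF3.StepA

/-! ## Layer 0: the abstract core (Mathlib only) -/

section Core

variable {L : Type*} [NormedField L]

/-- The norm operator of an endomorphism `φ` of a field: `normPhi φ y` is the norm of `y` for the
`L`-algebra structure `φ.toAlgebra` on `L`; `φ (normPhi φ y) = N_{L/φ(L)} y`. -/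
def normPhi (φ : L →+* L) : L →* L :=
  letI := φ.toAlgebra
  Algebra.norm L

/-- The four properties of the norm operator `N = normPhi φ` used by the Dwork argument. -/
structure DworkData (p : ℕ) (Kc : Subfield L) (N : L →* L) : Prop where
  norm_map : ∀ y : L, ‖N y‖ = ‖y‖ ^ p
  map_const : ∀ c ∈ Kc, N c = c ^ p
  contr : ∀ h : L, ‖h‖ < 1 → ‖N (1 + h) - 1‖ ≤ max (‖(p : L)‖ * ‖h‖) (‖h‖ ^ p)
  norm_p : ‖(p : L)‖ < 1
  one_lt : 1 < p
  closed : IsClosed (Kc : Set L)

/-- `y` is a constant (in `Kc`) times an `m`-th power. -/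
def IsCP (Kc : Subfield L) (m : ℕ) (y : L) : Prop := ∃ c ∈ Kc, ∃ u : L, y = c * u ^ m

end Core

/-! ## Layer 1: the frame -/

open AlgebraicCurve ModularCurve IsLocalRing Fermat.Agent.Red Fermat.Agent.X0 Fermat.Agent.Hecke
  Fermat.Agent.Jac Fermat.Agent.Val Fermat.Agent.BR Fermat.Agent.BR.SS Fermat.Agent.BR.S0
  Fermat.Agent.BR.TwoVal Fermat.Agent.BR.TwoValInst Fermat.Agent.BR.ConstRedTwo
  Fermat.Agent.BR.Inst.SpecIso Fermat.Agent.BR2.NormResidueModular
  Fermat.Agent.BR.S0.RedModular

variable (M q : ℕ) [NeZero M] [hq : Fact q.Prime]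
  (B : ValuationSubring (AlgebraicClosure ℚ)) [IsAlgClosed (ResidueField B)]
  [CharP (ResidueField B) q]
  (hB : B.LiesOverPrime q) (hqM : ¬ q ∣ M)

/-- THE FRAME: a complete ultrametric normed field `L` with the expansion `e1` of `F̄_{Mq}` at the
component `∞` (unit ball `= O1`), such that the level-`M` functions are dense, and the Frobenius
lift `φ` (`e1 ∘ β = φ ∘ e1 ∘ α`; in the `q`-expansion model `φ = (s ↦ s^q)`, `Kb`-linear). -/
structure Frame (L : Type) [NormedField L] where
  e1 : Fb (M * q) →+* L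
  φ : L →+* L
  norm_le_one_iff : ∀ x : Fb (M * q), ‖e1 x‖ ≤ 1 ↔ x ∈ O1 M B hB
  e1_beta : ∀ x : Fb M, e1 (heckeBetaBar Kb M q x) = φ (e1 (heckeAlphaBar Kb M q x))
  dense : DenseRange fun x : Fb M => e1 (heckeAlphaBar Kb M q x)
  norm_phi : ∀ y : L, ‖φ y‖ = ‖y‖

namespace Frame

variable {M q B hB hqM} {L : Type} [NormedField L] (Fr : Frame M q B hB L)

/-- the expansion of level-`M` functions -/
def eM : Fb M →+* L := Fr.e1.comp (heckeAlphaBar Kb M q : Fb M →+* Fb (M * q))

/-- the expansion at the component `0`: `e2 := e1 ∘ W_q` (unit ball `= O2`, `e2 ∘ β = eM`,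
`e2 ∘ α = φ ∘ eM`: all from `TwoVal.Wq_alpha`, `Wq_beta`, `mem_O2_iff`). -/
def e2 (hqM : ¬ q ∣ M) : Fb (M * q) →+* L :=
  Fr.e1.comp ((Wq hqM : Fb (M * q) ≃ₐ[Kb] Fb (M * q)) : Fb (M * q) →+* Fb (M * q))

/-- the complete field of constants: the closure of `Kb` in `L` -/
def Kc : Subfield L :=
  ((algebraMap Kb (Fb (M * q))).fieldRange.map Fr.e1).topologicalClosure

/-- the norm operator `N_φ` -/
def N : L →* L := normPhi Fr.φ

/-- the coordinate `θ = e(j)` -/
def theta : L := Fr.e1 (jOne M q)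

end Frame

/-! ## Layer 2: `tor#` -/

section Tor

variable {M q B hB hqM} {L : Type} [NormedField L] (Fr : Frame M q B hB L)

/-- `y` is a constant times an `m`-th power in `L`. -/
def IsConstPow (m : ℕ) (y : L) : Prop := IsCP Fr.Kc m y

/-- THE HONEST TORIC PART `tor#(m)`, frame form: classes `x` with a representative `(D, f)`,
`m D = div f`, such that `f` is a constant times an `m`-th power in BOTH completions. -/
def IsTorSharp (hqM : ¬ q ∣ M) (m : ℕ) (x : Pic0 Kb (Fb (M * q))) : Prop :=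
  ∃ (D : Divisor.degZero (K := Kb) (F := Fb (M * q))) (f : Fb (M * q)),
    BR2.Filt.IsRep m x D f ∧ IsConstPow Fr m (Fr.e1 f) ∧ IsConstPow Fr m (Fr.e2 hqM f)

/-- `f` is, at the valuation subring `O`, arbitrarily close to a constant times an `m`-th power
(main's vocabulary only). -/
def ApproxPow (O : ValuationSubring (Fb (M * q))) (m : ℕ) (f : Fb (M * q)) : Prop :=
  ∀ n : ℕ, ∃ (c : Kb) (u : Fb (M * q)), c ≠ 0 ∧ u ≠ 0 ∧
    ∃ z ∈ O, c • u ^ m = f * (1 + (q : Fb (M * q)) ^ n * z)

/-- FRAME-FREE `tor#`: what Step B (D-B2, D-B4) types against.  At ONE `n > 2k` the data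
`(c, u, z)` is rational over a finite level `K''`, and Newton inside the complete discretely valued
`Lh v` gives an exact `q^k`-th root there (addendum #1738 (I)). -/
def IsTorSharpApprox (hqM : ¬ q ∣ M) (m : ℕ) (x : Pic0 Kb (Fb (M * q))) : Prop :=
  ∃ (D : Divisor.degZero (K := Kb) (F := Fb (M * q))) (f : Fb (M * q)),
    BR2.Filt.IsRep m x D f ∧ ApproxPow (M := M) (q := q) (O1 M B hB) m f ∧
      ApproxPow (M := M) (q := q) (O2 B hB hqM) m f

end Tor

end Fermat.Agent.FF3.StepA
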