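import Mathlib
import Fermat.Agent.FF3.StepA.Defs
import Fermat.Agent.FF3.NormContr.Contract

/-!
# PROGRAMME I, block A, node A0: the Dwork core, adapter to helper21's `NormContr.mem_of_contraction`

`dwork_core` : `DworkData p Kc N`, `f1 * N f2` and `N f1 * f2` constants times `m`-th powers,
`f1` a constant times an `m`-th power times a one-unit  ⟹  `f1` is a constant times an `m`-th
power.
-/

set_option autoImplicit false

noncomputable section

namespace Fermat.Agent.FF3.StepA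

open Fermat.Agent.FF3.NormContr

variable {L : Type*} [NormedField L]

theorem IsCP.one (Kc : Subfield L) (m : ℕ) : IsCP Kc m (1 : L) :=
  ⟨1, Kc.one_mem, 1, by rw [one_pow, mul_one]⟩

theorem IsCP.mul {Kc : Subfield L} {m : ℕ} {y z : L} (hy : IsCP Kc m y) (hz : IsCP Kc m z) :
    IsCP Kc m (y * z) := by
  obtain ⟨c, hc, u, rfl⟩ := hy
  obtain ⟨c', hc', u', rfl⟩ := hz
  exact ⟨c * c', Kc.mul_mem hc hc', u * u', by rw [mul_pow]; ring⟩

theorem IsCP.inv {Kc : Subfield L} {m : ℕ} {y : L} (hy : IsCP Kc m y) : IsCP Kc m y⁻¹ := by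
  obtain ⟨c, hc, u, rfl⟩ := hy
  exact ⟨c⁻¹, Kc.inv_mem hc, u⁻¹, by rw [mul_inv, inv_pow]⟩

theorem IsCP.div {Kc : Subfield L} {m : ℕ} {y z : L} (hy : IsCP Kc m y) (hz : IsCP Kc m z) :
    IsCP Kc m (y / z) := by
  rw [div_eq_mul_inv]
  exact hy.mul hz.inv

theorem IsCP.pow_self (Kc : Subfield L) (m : ℕ) (u : L) : IsCP Kc m (u ^ m) :=
  ⟨1, Kc.one_mem, u, by rw [one_mul]⟩

theorem IsCP.const {Kc : Subfield L} (m : ℕ) {c : L} (hc : c ∈ Kc) : IsCP Kc m c :=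
  ⟨c, hc, 1, by rw [one_pow, mul_one]⟩

theorem IsCP.map {p : ℕ} {Kc : Subfield L} {N : L →* L} (hD : DworkData p Kc N) {m : ℕ} {y : L}
    (hy : IsCP Kc m y) : IsCP Kc m (N y) := by
  obtain ⟨c, hc, u, rfl⟩ := hy
  exact ⟨c ^ p, Kc.pow_mem hc p, N u, by rw [map_mul, map_pow, hD.map_const c hc]⟩

/-- the subgroup `Kc^× · (L^×)^m` of `Lˣ` -/
def cpSubgroup (Kc : Subfield L) (m : ℕ) : Subgroup Lˣ where
  carrier := {y | IsCP Kc m (y : L)}
  one_mem' := by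
    show IsCP Kc m ((1 : Lˣ) : L)
    rw [Units.val_one]
    exact IsCP.one Kc m
  mul_mem' := by
    intro a b ha hb
    show IsCP Kc m ((a * b : Lˣ) : L)
    rw [Units.val_mul]
    exact IsCP.mul ha hb
  inv_mem' := by
    intro a ha
    show IsCP Kc m ((a⁻¹ : Lˣ) : L)
    rw [Units.val_inv_eq_inv_val]
    exact IsCP.inv ha

theorem mem_cpSubgroup {Kc : Subfield L} {m : ℕ} {y : Lˣ} :
    y ∈ cpSubgroup Kc m ↔ IsCP Kc m (y : L) := Iff.rfl

theorem map_ne_zero_of_ne_zero (N : L →* L) {y : L} (hy : y ≠ 0) : N y ≠ 0 := by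
  intro h
  have h1 : N y * N y⁻¹ = 1 := by rw [← map_mul, mul_inv_cancel₀ hy, map_one]
  rw [h, zero_mul] at h1
  exact zero_ne_one h1

variable [CompleteSpace L] [IsUltrametricDist L]

/-- **THE DWORK CORE** (node A0). -/
theorem dwork_core {p : ℕ} {Kc : Subfield L} {N : L →* L} (hD : DworkData p Kc N) (m : ℕ)
    (hm : (m : L) ≠ 0) {f1 f2 : L} (hf1 : f1 ≠ 0) (hf2 : f2 ≠ 0)
    (hα : IsCP Kc m (f1 * N f2)) (hβ : IsCP Kc m (N f1 * f2))
    (ht1 : ∃ c ∈ Kc, ∃ u : L, ‖f1 - c * u ^ m‖ < ‖f1‖) :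
    IsCP Kc m f1 := by
  obtain ⟨c, hc, u, hcu⟩ := ht1
  -- `c * u ^ m ≠ 0` and has the norm of `f1`
  have hs0 : c * u ^ m ≠ 0 := by
    intro h0
    rw [h0, sub_zero] at hcu
    exact lt_irrefl _ hcu
  have hnorm : ‖c * u ^ m‖ = ‖f1‖ := by
    have h1 : ‖f1 - (f1 - c * u ^ m)‖ = ‖f1‖ := by
      have h2 : ‖f1 - c * u ^ m‖ ≠ ‖f1‖ := ne_of_lt hcu
      rw [sub_eq_add_neg]
      have h3 := IsUltrametricDist.norm_add_eq_max_of_norm_ne_norm
        (x := f1) (y := -(f1 - c * u ^ m)) (by rw [norm_neg]; exact fun h => h2 h.symm)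
      rw [h3, norm_neg]
      exact max_eq_left hcu.le
    rwa [sub_sub_cancel] at h1
  let N' : Lˣ →* Lˣ := Units.map N
  let f : Lˣ := Units.mk0 f1 hf1
  let s : Lˣ := Units.mk0 (c * u ^ m) hs0
  let t : Lˣ := f / s
  have hp2 : 2 ≤ p := hD.one_lt
  have hNS : ∀ y ∈ cpSubgroup Kc m, N' y ∈ cpSubgroup Kc m := fun y hy => by
    show IsCP Kc m ((Units.map N y : Lˣ) : L)
    rw [Units.coe_map]
    exact IsCP.map hD hy
  have hpow : ∀ y : Lˣ, y ^ m ∈ cpSubgroup Kc m := fun y => by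
    show IsCP Kc m ((y ^ m : Lˣ) : L)
    rw [Units.val_pow_eq_pow_val]
    exact IsCP.pow_self Kc m _
  have hcontr : ∀ y : Lˣ, ‖(y : L) - 1‖ < 1 →
      ‖((N' y : Lˣ) : L) - 1‖ ≤ max (‖(y : L) - 1‖ ^ p) (‖(p : L)‖ * ‖(y : L) - 1‖) := by
    intro y hy
    have h1 := hD.contr ((y : L) - 1) hy
    rw [add_sub_cancel] at h1
    rw [max_comm]
    exact h1
  have hs : s ∈ cpSubgroup Kc m := ⟨c, hc, u, rfl⟩
  have hfst : f = s * t := by
    show f = s * (f / s)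
    rw [mul_div_cancel]
  have ht : ‖(t : L) - 1‖ < 1 := by
    have h1 : (t : L) = f1 / (c * u ^ m) := by
      show ((f / s : Lˣ) : L) = _
      rw [Units.val_div_eq_div_val]
      rfl
    have h2 : (t : L) - 1 = (f1 - c * u ^ m) / (c * u ^ m) := by
      rw [h1, sub_div, div_self hs0]
    rw [h2, norm_div, hnorm]
    exact (div_lt_one (norm_pos_iff.mpr hf1)).mpr hcu
  have hf : f / N' (N' f) ∈ cpSubgroup Kc m := by
    show IsCP Kc m ((f / N' (N' f) : Lˣ) : L)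
    rw [Units.val_div_eq_div_val]
    have h1 : ((N' (N' f) : Lˣ) : L) = N (N f1) := rfl
    have h2 : ((f : Lˣ) : L) = f1 := rfl
    rw [h1, h2]
    have hNf2 : N f2 ≠ 0 := map_ne_zero_of_ne_zero N hf2
    have h3 : f1 / N (N f1) = (f1 * N f2) / N (N f1 * f2) := by
      rw [map_mul, mul_div_mul_right _ _ hNf2]
    rw [h3]
    exact hα.div (IsCP.map hD hβ)
  have key := mem_of_contraction m hm (cpSubgroup Kc m) hpow N' hNS hp2 (norm_nonneg _)
    hD.norm_p hcontr f s t hs hfst ht hf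
  exact key

end Fermat.Agent.FF3.StepA
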