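import Mathlib
import Fermat.Agent.FF3.StepA.Defs

/-!
# PROGRAMME I, block A, node A6: toric classes give one-unit quotients

* `norm_lt_one_iff` : for `e : F →+* L` with unit ball `O`: `‖e x‖ < 1 ↔ x ∈ O.nonunits`;
* `exists_oneUnit_of_residue` (generic): `c' • f ∈ O` a unit, `w = c̃ • ũ^m ∈ O` with the same
  residue ⟹ `‖e f - e (c • u^m)‖ < ‖e f‖`;
* `Frame.norm_e2_le_one_iff`;
* **`exists_oneUnit_of_mem_torSub`** : for `x ∈ Filt.torSub I.toSetup m` (`m ≠ 0`) there is a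
  representative `(D, f)` which is a constant times an `m`-th power times a one-unit at both
  expansions `e1`, `e2`.
-/

set_option autoImplicit false
set_option linter.unusedSectionVars false
set_option synthInstance.maxHeartbeats 400000

noncomputable section

namespace Fermat.Agent.FF3.StepA

section Generic

variable {F : Type*} [Field F] {L : Type*} [NormedField L]

/-- unit ball `O` ⟹ open unit ball `= 𝔪(O)` -/
theorem norm_lt_one_iff {e : F →+* L} {O : ValuationSubring F}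
    (h : ∀ x : F, ‖e x‖ ≤ 1 ↔ x ∈ O) (x : F) : ‖e x‖ < 1 ↔ x ∈ O.nonunits := by
  by_cases hx : x = 0
  · subst hx
    rw [map_zero, norm_zero]
    exact ⟨fun _ => O.nonunits.zero_mem, fun _ => zero_lt_one⟩
  · have hex : e x ≠ 0 := (map_ne_zero e).mpr hx
    have h1 : x ∈ O.nonunits ↔ x⁻¹ ∉ O := by
      rw [O.mem_nonunits_iff, ← O.valuation_le_one_iff, map_inv₀, not_le]
      have hv : O.valuation x ≠ 0 := (Valuation.ne_zero_iff _).mpr hx
      constructor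
      · intro hlt
        exact one_lt_inv_iff₀.mpr ⟨zero_lt_iff.mpr hv, hlt⟩
      · intro hlt
        exact (one_lt_inv_iff₀.mp hlt).2
    rw [h1, ← h, map_inv₀, norm_inv, not_le]
    have hpos : 0 < ‖e x‖ := norm_pos_iff.mpr hex
    constructor
    · intro hlt
      exact (one_lt_inv₀ hpos).mpr hlt
    · intro hlt
      exact (one_lt_inv₀ hpos).mp hlt

theorem norm_eq_one_of_mem_of_notMem {e : F →+* L} {O : ValuationSubring F}
    (h : ∀ x : F, ‖e x‖ ≤ 1 ↔ x ∈ O) {x : F} (hx : x ∈ O) (hx' : x ∉ O.nonunits) : ‖e x‖ = 1 :=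
  le_antisymm ((h x).mpr hx) (not_lt.mp fun hlt => hx' ((norm_lt_one_iff h x).mp hlt))

variable {K : Type*} [Field K] [Algebra K F]

/-- generic one-unit lemma -/
theorem exists_oneUnit_of_residue {e : F →+* L} {O : ValuationSubring F}
    (h : ∀ x : F, ‖e x‖ ≤ 1 ↔ x ∈ O) {m : ℕ} {f : F} {c' ct : K} {ut : F} (hc' : c' ≠ 0)
    (hct : ct ≠ 0) (hut : ut ≠ 0)
    (hf : c' • f ∈ O) (hfu : c' • f ∉ O.nonunits)
    (hd : c' • f - ct • ut ^ m ∈ O.nonunits) :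
    ∃ (c : K) (u : F), c ≠ 0 ∧ u ≠ 0 ∧ ‖e f - e (c • u ^ m)‖ < ‖e f‖ := by
  refine ⟨c'⁻¹ * ct, ut, mul_ne_zero (inv_ne_zero hc') hct, hut, ?_⟩
  have h1 : ‖e (c' • f)‖ = 1 := norm_eq_one_of_mem_of_notMem h hf hfu
  have h2 : ‖e (c' • f - ct • ut ^ m)‖ < 1 := (norm_lt_one_iff h _).mpr hd
  have ha : algebraMap K F c' ≠ 0 := (map_ne_zero _).mpr hc'
  have hea : e (algebraMap K F c') ≠ 0 := (map_ne_zero e).mpr ha
  have e1 : e (c' • f) = e (algebraMap K F c') * e f := by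
    rw [Algebra.smul_def, map_mul]
  have e2 : e (c' • f - ct • ut ^ m) =
      e (algebraMap K F c') * (e f - e ((c'⁻¹ * ct) • ut ^ m)) := by
    rw [← map_sub, ← map_mul]
    congr 1
    rw [Algebra.smul_def, Algebra.smul_def, Algebra.smul_def, map_mul, map_inv₀]
    field_simp
  rw [e1, norm_mul] at h1
  rw [e2, norm_mul] at h2
  have hpos : 0 < ‖e (algebraMap K F c')‖ := norm_pos_iff.mpr hea
  have h3 : ‖e (algebraMap K F c')‖ * ‖e f - e ((c'⁻¹ * ct) • ut ^ m)‖ <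
      ‖e (algebraMap K F c')‖ * ‖e f‖ := by rw [h1]; exact h2
  exact lt_of_mul_lt_mul_left h3 hpos.le

end Generic

open AlgebraicCurve ModularCurve IsLocalRing Fermat.Agent.Red Fermat.Agent.X0 Fermat.Agent.Hecke
  Fermat.Agent.Jac Fermat.Agent.Val Fermat.Agent.BR Fermat.Agent.BR.SS Fermat.Agent.BR.S0
  Fermat.Agent.BR.TwoVal Fermat.Agent.BR.TwoValInst Fermat.Agent.BR.ConstRedTwo
  Fermat.Agent.BR.Inst.SpecIso Fermat.Agent.BR2.NormResidueModular
  Fermat.Agent.BR.S0.RedModular Fermat.Agent.BR2.G5ModularFinal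

variable {M q : ℕ} [NeZero M] [hq : Fact q.Prime]
  {B : ValuationSubring (AlgebraicClosure ℚ)} [IsAlgClosed (ResidueField B)]
  [CharP (ResidueField B) q]
  {hB : B.LiesOverPrime q} {hqM : ¬ q ∣ M}
  {L : Type} [NormedField L] (Fr : Frame M q B hB L) {ν : Type*}
  (I : TwoCompInput (F := Fb (M * q)) B (residue B)
    (modularFunctionFieldFullC (ResidueField B) M) ν)

/-- (A-e2) `e2` has unit ball `O2`. -/
theorem Frame.norm_e2_le_one_iff (hqM : ¬ q ∣ M) (x : Fb (M * q)) :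
    ‖Fr.e2 hqM x‖ ≤ 1 ↔ x ∈ O2 B hB hqM :=
  Fr.norm_le_one_iff (Wq hqM x)

/-- lifting a residue `c̄ ū^m` on the first component -/
theorem exists_lift_one (hqM : ¬ q ∣ M) {m : ℕ}
    {g u₀ : modularFunctionFieldFullC (ResidueField B) M} {c₀ : ResidueField B} (hg : g ≠ 0)
    (hgu : g = algebraMap (ResidueField B) _ c₀ * u₀ ^ m) (hm : m ≠ 0) :
    ∃ (ct : Kb) (ut : Fb (M * q)), ct ≠ 0 ∧ ut ≠ 0 ∧
      ∃ hw : ct • ut ^ m ∈ O1 M B hB, red1F B hB hqM ⟨ct • ut ^ m, hw⟩ = g := by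
  have hc0 : c₀ ≠ 0 := by
    rintro rfl
    rw [map_zero, zero_mul] at hgu
    exact hg hgu
  have hu0 : u₀ ≠ 0 := by
    rintro rfl
    rw [zero_pow hm, mul_zero] at hgu
    exact hg hgu
  obtain ⟨ut, hut⟩ : ∃ ut : O1 M B hB, red1F B hB hqM ut = u₀ := by
    obtain ⟨ut, hut⟩ := (constRedW1 B hB hqM).res_surjective u₀
    exact ⟨ut, (constRedW1_res_eq M q B hB hqM ut).symm.trans hut⟩
  obtain ⟨ct, hct⟩ := IsLocalRing.residue_surjective (R := B) c₀
  have hctne : (ct : Kb) ≠ 0 := by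
    intro h0
    apply hc0
    rw [← hct]
    have : ct = 0 := Subtype.ext h0
    rw [this, map_zero]
  have hutne : (ut : Fb (M * q)) ≠ 0 := by
    intro h0
    apply hu0
    rw [← hut]
    have : ut = 0 := Subtype.ext h0
    rw [this, map_zero]
  have hcmem : algebraMap Kb (Fb (M * q)) (ct : Kb) ∈ O1 M B hB := algebraMap_mem_O1 B hB ct.2
  have hw : (ct : Kb) • (ut : Fb (M * q)) ^ m ∈ O1 M B hB := by
    rw [Algebra.smul_def]
    exact (O1 M B hB).mul_mem _ _ hcmem (pow_mem ut.2 m)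
  refine ⟨(ct : Kb), (ut : Fb (M * q)), hctne, hutne, hw, ?_⟩
  have e : (⟨(ct : Kb) • (ut : Fb (M * q)) ^ m, hw⟩ : O1 M B hB) =
      ⟨algebraMap Kb (Fb (M * q)) (ct : Kb), hcmem⟩ * ut ^ m := by
    apply Subtype.ext
    show (ct : Kb) • (ut : Fb (M * q)) ^ m = algebraMap Kb (Fb (M * q)) (ct : Kb) * _
    rw [Algebra.smul_def]
    rfl
  rw [e, map_mul, map_pow, hut, red1F_algebraMap B hB hqM ct.2, hgu]
  congr 2

/-- lifting a residue `c̄ ū^m` on the second component -/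
theorem exists_lift_two (hqM : ¬ q ∣ M) {m : ℕ}
    {g u₀ : modularFunctionFieldFullC (ResidueField B) M} {c₀ : ResidueField B} (hg : g ≠ 0)
    (hgu : g = algebraMap (ResidueField B) _ c₀ * u₀ ^ m) (hm : m ≠ 0) :
    ∃ (ct : Kb) (ut : Fb (M * q)), ct ≠ 0 ∧ ut ≠ 0 ∧
      ∃ hw : ct • ut ^ m ∈ O2 B hB hqM, red2F B hB hqM ⟨ct • ut ^ m, hw⟩ = g := by
  have hc0 : c₀ ≠ 0 := by
    rintro rfl
    rw [map_zero, zero_mul] at hgu
    exact hg hgu
  have hu0 : u₀ ≠ 0 := by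
    rintro rfl
    rw [zero_pow hm, mul_zero] at hgu
    exact hg hgu
  obtain ⟨ut, hut⟩ : ∃ ut : O2 B hB hqM, red2F B hB hqM ut = u₀ := by
    obtain ⟨ut, hut⟩ := (constRedW2 B hB hqM).res_surjective u₀
    exact ⟨ut, (constRedW2_res_eq M q B hB hqM ut).symm.trans hut⟩
  obtain ⟨ct, hct⟩ := IsLocalRing.residue_surjective (R := B) c₀
  have hctne : (ct : Kb) ≠ 0 := by
    intro h0
    apply hc0
    rw [← hct]
    have : ct = 0 := Subtype.ext h0
    rw [this, map_zero]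
  have hutne : (ut : Fb (M * q)) ≠ 0 := by
    intro h0
    apply hu0
    rw [← hut]
    have : ut = 0 := Subtype.ext h0
    rw [this, map_zero]
  have hcmem : algebraMap Kb (Fb (M * q)) (ct : Kb) ∈ O2 B hB hqM :=
    algebraMap_mem_O2 B hB hqM ct.2
  have hw : (ct : Kb) • (ut : Fb (M * q)) ^ m ∈ O2 B hB hqM := by
    rw [Algebra.smul_def]
    exact (O2 B hB hqM).mul_mem _ _ hcmem (pow_mem ut.2 m)
  refine ⟨(ct : Kb), (ut : Fb (M * q)), hctne, hutne, hw, ?_⟩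
  have e : (⟨(ct : Kb) • (ut : Fb (M * q)) ^ m, hw⟩ : O2 B hB hqM) =
      ⟨algebraMap Kb (Fb (M * q)) (ct : Kb), hcmem⟩ * ut ^ m := by
    apply Subtype.ext
    show (ct : Kb) • (ut : Fb (M * q)) ^ m = algebraMap Kb (Fb (M * q)) (ct : Kb) * _
    rw [Algebra.smul_def]
    rfl
  rw [e, map_mul, map_pow, hut, red2F_algebraMap B hB hqM ct.2, hgu]
  congr 2

set_option maxHeartbeats 1000000 in
/-- **(A6)** toric classes have one-unit quotients at both expansions. -/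
theorem exists_oneUnit_of_mem_torSub (hqM : ¬ q ∣ M) (hC : I.C = compW B hB hqM) {m : ℕ}
    (hm : m ≠ 0) {x : Pic0 Kb (Fb (M * q))} (hx : x ∈ BR2.Filt.torSub I.toSetup m) :
    ∃ (D : Divisor.degZero (K := Kb) (F := Fb (M * q))) (f : Fb (M * q)),
      BR2.Filt.IsRep m x D f ∧
      (∃ (c : Kb) (u : Fb (M * q)), c ≠ 0 ∧ u ≠ 0 ∧
        ‖Fr.e1 f - Fr.e1 (c • u ^ m)‖ < ‖Fr.e1 f‖) ∧
      (∃ (c : Kb) (u : Fb (M * q)), c ≠ 0 ∧ u ≠ 0 ∧
        ‖Fr.e2 hqM f - Fr.e2 hqM (c • u ^ m)‖ < ‖Fr.e2 hqM f‖) := by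
  obtain ⟨D, f, hR, hres⟩ := hx
  refine ⟨D, f, hR, ?_, ?_⟩
  · obtain ⟨g, hg, u₀, c₀, hgu⟩ := hres 0
    obtain ⟨hg0, c', hc', hm1, e1'⟩ := exists_red1F_of_isResidue hC hg
    obtain ⟨ct, ut, hct, hut, hw, ew⟩ := exists_lift_one hqM hg0 hgu hm
    have hfu : c' • f ∉ (O1 M B hB).nonunits := by
      intro hn
      apply hg0
      rw [← e1']
      exact (red1F_eq_zero_iff B hB hqM ⟨c' • f, hm1⟩).mpr hn
    have hd : c' • f - ct • ut ^ m ∈ (O1 M B hB).nonunits := by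
      have h0 : red1F B hB hqM (⟨c' • f, hm1⟩ - ⟨ct • ut ^ m, hw⟩) = 0 := by
        rw [map_sub, e1', ew, sub_self]
      exact (red1F_eq_zero_iff B hB hqM _).mp h0
    exact exists_oneUnit_of_residue Fr.norm_le_one_iff hc' hct hut hm1 hfu hd
  · obtain ⟨g, hg, u₀, c₀, hgu⟩ := hres 1
    obtain ⟨hg0, c', hc', hm1, e1'⟩ := exists_red2F_of_isResidue hC hg
    obtain ⟨ct, ut, hct, hut, hw, ew⟩ := exists_lift_two hqM hg0 hgu hm
    have hfu : c' • f ∉ (O2 B hB hqM).nonunits := by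
      intro hn
      apply hg0
      rw [← e1']
      exact (red2F_eq_zero_iff B hB hqM ⟨c' • f, hm1⟩).mpr hn
    have hd : c' • f - ct • ut ^ m ∈ (O2 B hB hqM).nonunits := by
      have h0 : red2F B hB hqM (⟨c' • f, hm1⟩ - ⟨ct • ut ^ m, hw⟩) = 0 := by
        rw [map_sub, e1', ew, sub_self]
      exact (red2F_eq_zero_iff B hB hqM _).mp h0
    exact exists_oneUnit_of_residue (Fr.norm_e2_le_one_iff hqM) hc' hct hut hm1 hfu hd

end Fermat.Agent.FF3.StepA
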