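import Mathlib
import Fermat.Agent.FF3.StepA.Defs
import Fermat.Agent.FF3.StepA.Core

/-!
# PROGRAMME I, block A, node A7 (part 1): the subgroups `tor#`

* algebra of `ApproxPow` (`ApproxPow.one`, `.mul`, `.inv`, `.const_mul_pow`);
* `torSharpApprox hqM m` : the frame-free `tor#(m)` as a subgroup of `Pic⁰`;
* `torSharp Fr hqM m` : the frame form of `tor#(m)` as a subgroup.
-/

set_option autoImplicit false
set_option linter.unusedSectionVars false
set_option synthInstance.maxHeartbeats 400000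

noncomputable section

namespace Fermat.Agent.FF3.StepA

open AlgebraicCurve ModularCurve IsLocalRing Fermat.Agent.Red Fermat.Agent.X0 Fermat.Agent.Hecke
  Fermat.Agent.Jac Fermat.Agent.Val Fermat.Agent.BR Fermat.Agent.BR.SS Fermat.Agent.BR.S0
  Fermat.Agent.BR.TwoVal Fermat.Agent.BR.TwoValInst Fermat.Agent.BR.ConstRedTwo
  Fermat.Agent.BR.Inst.SpecIso Fermat.Agent.BR2.NormResidueModular
  Fermat.Agent.BR.S0.RedModular

variable {M q : ℕ} [NeZero M] [hq : Fact q.Prime]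
  {B : ValuationSubring (AlgebraicClosure ℚ)} [IsAlgClosed (ResidueField B)]
  [CharP (ResidueField B) q]
  {hB : B.LiesOverPrime q} {hqM : ¬ q ∣ M}

/-! ### `ApproxPow` -/

section Approx

variable {O : ValuationSubring (Fb (M * q))} {m : ℕ}

/-- `q` is a nonzero element of `F̄_{Mq}` -/
theorem q_ne_zero_Fb' : (q : Fb (M * q)) ≠ 0 := by
  have h1 : (q : Fb (M * q)) = algebraMap Kb (Fb (M * q)) (q : Kb) := (map_natCast _ q).symm
  rw [h1]
  exact (map_ne_zero _).mpr (Nat.cast_ne_zero.mpr hq.out.ne_zero)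

theorem ApproxPow.one : ApproxPow (M := M) (q := q) O m (1 : Fb (M * q)) := fun n =>
  ⟨1, 1, one_ne_zero, one_ne_zero, 0, O.zero_mem, by simp⟩

theorem ApproxPow.mul {f f' : Fb (M * q)} (h : ApproxPow (M := M) (q := q) O m f)
    (h' : ApproxPow (M := M) (q := q) O m f') : ApproxPow (M := M) (q := q) O m (f * f') := by
  intro n
  obtain ⟨c, u, hc, hu, z, hz, e⟩ := h n
  obtain ⟨c', u', hc', hu', z', hz', e'⟩ := h' n
  refine ⟨c * c', u * u', mul_ne_zero hc hc', mul_ne_zero hu hu',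
    z + z' + (q : Fb (M * q)) ^ n * (z * z'), ?_, ?_⟩
  · refine O.add_mem _ _ (O.add_mem _ _ hz hz') (O.mul_mem _ _ (pow_mem ?_ n) (O.mul_mem _ _ hz hz'))
    exact natCast_mem O q
  · have e0 : (c * c') • (u * u') ^ m = (c • u ^ m) * (c' • u' ^ m) := by
      rw [mul_pow, smul_mul_smul_comm]
    rw [e0, e, e']
    ring

/-- multiplying by a constant times an `m`-th power does not change `ApproxPow` -/
theorem ApproxPow.const_mul_pow {f : Fb (M * q)} (h : ApproxPow (M := M) (q := q) O m f)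
    {a : Kb} (ha : a ≠ 0) {w : Fb (M * q)} (hw : w ≠ 0) :
    ApproxPow (M := M) (q := q) O m (a • w ^ m * f) := by
  intro n
  obtain ⟨c, u, hc, hu, z, hz, e⟩ := h n
  refine ⟨a * c, w * u, mul_ne_zero ha hc, mul_ne_zero hw hu, z, hz, ?_⟩
  have e0 : (a * c) • (w * u) ^ m = (a • w ^ m) * (c • u ^ m) := by
    rw [mul_pow, smul_mul_smul_comm]
  rw [e0, e]
  ring

theorem ApproxPow.inv {f : Fb (M * q)} (h : ApproxPow (M := M) (q := q) O m f)
    (hqO : (q : Fb (M * q)) ∈ O.nonunits) : ApproxPow (M := M) (q := q) O m f⁻¹ := by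
  intro n
  obtain ⟨c, u, hc, hu, z, hz, e⟩ := h (n + 1)
  have hq0 : (q : Fb (M * q)) ≠ 0 := q_ne_zero_Fb'
  have hqn0 : (q : Fb (M * q)) ^ n ≠ 0 := pow_ne_zero n hq0
  have hqmem : (q : Fb (M * q)) ∈ O := natCast_mem O q
  -- `t = 1 + q^(n+1) z` is a unit of `O`
  set t : Fb (M * q) := 1 + (q : Fb (M * q)) ^ (n + 1) * z with ht
  have hqz : t - 1 ∈ O.nonunits := by
    have h1 : t - 1 = (q : Fb (M * q)) * ((q : Fb (M * q)) ^ n * z) := by
      rw [ht, pow_succ]; ring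
    rw [h1]
    exact Fermat.Agent.BR.TwoVal.mul_mem_nonunits_right O hqO
      (O.mul_mem _ _ (pow_mem hqmem n) hz)
  have htinv : t⁻¹ ∈ O := Fermat.Agent.BR.TwoVal.inv_mem_of_notMem_nonunits O
    (Fermat.Agent.BR.TwoVal.notMem_nonunits_of_sub_one_mem O hqz)
  have ht0 : t ≠ 0 := by
    intro h0
    have h1 := Fermat.Agent.BR.TwoVal.notMem_nonunits_of_sub_one_mem O hqz
    rw [h0] at h1
    exact h1 O.nonunits.zero_mem
  refine ⟨c⁻¹, u⁻¹, inv_ne_zero hc, inv_ne_zero hu, -((q : Fb (M * q)) * z * t⁻¹), ?_, ?_⟩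
  · exact O.neg_mem _ (O.mul_mem _ _ (O.mul_mem _ _ hqmem hz) htinv)
  · have e0 : c⁻¹ • u⁻¹ ^ m = (c • u ^ m)⁻¹ := by
      rw [Algebra.smul_def, Algebra.smul_def, mul_inv, map_inv₀, inv_pow]
    rw [e0, e, mul_inv]
    congr 1
    have h2 : t * (1 + (q : Fb (M * q)) ^ n * -((q : Fb (M * q)) * z * t⁻¹)) = 1 := by
      have h3 : t * (1 + (q : Fb (M * q)) ^ n * -((q : Fb (M * q)) * z * t⁻¹)) =
          t - (q : Fb (M * q)) ^ (n + 1) * z * (t * t⁻¹) := by
        rw [pow_succ]; ring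
      rw [h3, mul_inv_cancel₀ ht0, mul_one, ht]
      ring
    exact (eq_inv_of_mul_eq_one_right h2).symm ▸ rfl

end Approx

/-! ### The frame-free `tor#` -/

section TorApprox

/-- frame-free `tor#(m)` as a subgroup -/
def torSharpApprox (hB : B.LiesOverPrime q) (hqM : ¬ q ∣ M) (m : ℕ) :
    AddSubgroup (Pic0 Kb (Fb (M * q))) where
  carrier := {x | IsTorSharpApprox (B := B) (hB := hB) hqM m x}
  zero_mem' := ⟨0, 1, BR2.Filt.isRep_zero m, ApproxPow.one, ApproxPow.one⟩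
  add_mem' := by
    rintro x y ⟨D, f, hR, h1, h2⟩ ⟨D', f', hR', h1', h2'⟩
    exact ⟨D + D', f * f', hR.add hR', h1.mul h1', h2.mul h2'⟩
  neg_mem' := by
    rintro x ⟨D, f, hR, h1, h2⟩
    exact ⟨-D, f⁻¹, hR.neg, h1.inv (Fermat.Agent.BR.TwoValQ.q_mem_nonunits_O1 B hB),
      h2.inv (Fermat.Agent.BR.TwoValQ.q_mem_nonunits_O2 B hB hqM)⟩

theorem mem_torSharpApprox {m : ℕ} {x : Pic0 Kb (Fb (M * q))} :
    x ∈ torSharpApprox hB hqM m ↔ IsTorSharpApprox (B := B) (hB := hB) hqM m x := Iff.rfl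

end TorApprox

/-! ### The frame form of `tor#` -/

section TorFrame

variable {L : Type} [NormedField L] (Fr : Frame M q B hB L)

/-- `tor#(m)`, frame form, as a subgroup -/
def torSharp (hqM : ¬ q ∣ M) (m : ℕ) : AddSubgroup (Pic0 Kb (Fb (M * q))) where
  carrier := {x | IsTorSharp Fr hqM m x}
  zero_mem' := by
    refine ⟨0, 1, BR2.Filt.isRep_zero m, ?_, ?_⟩
    · show IsCP Fr.Kc m (Fr.e1 1)
      rw [map_one]; exact IsCP.one _ m
    · show IsCP Fr.Kc m (Fr.e2 hqM 1)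
      rw [map_one]; exact IsCP.one _ m
  add_mem' := by
    rintro x y ⟨D, f, hR, h1, h2⟩ ⟨D', f', hR', h1', h2'⟩
    refine ⟨D + D', f * f', hR.add hR', ?_, ?_⟩
    · show IsCP Fr.Kc m (Fr.e1 (f * f'))
      rw [map_mul]; exact IsCP.mul h1 h1'
    · show IsCP Fr.Kc m (Fr.e2 hqM (f * f'))
      rw [map_mul]; exact IsCP.mul h2 h2'
  neg_mem' := by
    rintro x ⟨D, f, hR, h1, h2⟩
    refine ⟨-D, f⁻¹, hR.neg, ?_, ?_⟩
    · show IsCP Fr.Kc m (Fr.e1 f⁻¹)
      rw [map_inv₀]; exact IsCP.inv h1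
    · show IsCP Fr.Kc m (Fr.e2 hqM f⁻¹)
      rw [map_inv₀]; exact IsCP.inv h2

theorem mem_torSharp {m : ℕ} {x : Pic0 Kb (Fb (M * q))} :
    x ∈ torSharp Fr hqM m ↔ IsTorSharp Fr hqM m x := Iff.rfl

end TorFrame

end Fermat.Agent.FF3.StepA
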