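import Mathlib
import Fermat.Agent.FF3.StepA.Defs
import Fermat.Agent.FF3.StepA.Core
import Fermat.Agent.FF3.StepA.OneUnit
import Fermat.Agent.FF3.StepA.Tor

/-!
# PROGRAMME I, block A, node A7 (part 2): the assembly of Step A

`Fr : Frame M q B hB L` (complete, ultrametric), with the contraction package
`hD : DworkData q Fr.Kc Fr.N` (node A5) and the norm factorisations `hNFα`, `hNFβ` (node A2) as
explicit hypotheses.

* `mem_torSharp_of_mem_torSub` : **Step A**: `x ∈ Filt.torSub I.toSetup m` (`m ≠ 0`),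
  `α_* x = 0 = β_* x`  ⟹  `x ∈ torSharp Fr hqM m`.
-/

set_option autoImplicit false
set_option linter.unusedSectionVars false
set_option synthInstance.maxHeartbeats 400000

noncomputable section

namespace Fermat.Agent.FF3.StepA

open AlgebraicCurve ModularCurve IsLocalRing Fermat.Agent.Red Fermat.Agent.X0 Fermat.Agent.Hecke
  Fermat.Agent.Jac Fermat.Agent.Val Fermat.Agent.BR Fermat.Agent.BR.SS Fermat.Agent.BR.S0
  Fermat.Agent.BR.TwoVal Fermat.Agent.BR.TwoValInst Fermat.Agent.BR.ConstRedTwo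
  Fermat.Agent.BR.Inst.SpecIso Fermat.Agent.BR2.NormResidueModular
  Fermat.Agent.BR.S0.RedModular

variable {M q : ℕ} [NeZero M] [hq : Fact q.Prime]
  {B : ValuationSubring (AlgebraicClosure ℚ)} [IsAlgClosed (ResidueField B)]
  [CharP (ResidueField B) q]
  {hB : B.LiesOverPrime q} {hqM : ¬ q ∣ M}
  {L : Type} [NormedField L] (Fr : Frame M q B hB L) {ν : Type*}
  (I : TwoCompInput (F := Fb (M * q)) B (residue B)
    (modularFunctionFieldFullC (ResidueField B) M) ν)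

/-- constants of `F̄_{Mq}` go to `Kc` -/
theorem Frame.e1_algebraMap_mem_Kc (c : Kb) : Fr.e1 (algebraMap Kb (Fb (M * q)) c) ∈ Fr.Kc := by
  apply Subfield.le_topologicalClosure
  exact ⟨algebraMap Kb (Fb (M * q)) c, ⟨c, rfl⟩, rfl⟩

/-- constants of `F̄_M` go to `Kc` -/
theorem Frame.eM_algebraMap_mem_Kc (c : Kb) : Fr.eM (algebraMap Kb (Fb M) c) ∈ Fr.Kc := by
  have h : Fr.eM (algebraMap Kb (Fb M) c) = Fr.e1 (algebraMap Kb (Fb (M * q)) c) := by
    show Fr.e1 (heckeAlphaBar Kb M q (algebraMap Kb (Fb M) c)) = _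
    rw [AlgHom.commutes]
  rw [h]
  exact Fr.e1_algebraMap_mem_Kc c

/-- constants of `F̄_{Mq}` go to `Kc`, second expansion -/
theorem Frame.e2_algebraMap_mem_Kc (hqM : ¬ q ∣ M) (c : Kb) :
    Fr.e2 hqM (algebraMap Kb (Fb (M * q)) c) ∈ Fr.Kc := by
  have h : Fr.e2 hqM (algebraMap Kb (Fb (M * q)) c) = Fr.e1 (algebraMap Kb (Fb (M * q)) c) := by
    show Fr.e1 (Wq hqM (algebraMap Kb (Fb (M * q)) c)) = _
    rw [AlgEquiv.commutes]
  rw [h]
  exact Fr.e1_algebraMap_mem_Kc c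

theorem isCP_of_eq_const_mul_pow {m : ℕ} {y : Fb M} {c : Kb} {h : Fb M}
    (e : y = algebraMap Kb (Fb M) c * h ^ m) : IsCP Fr.Kc m (Fr.eM y) :=
  ⟨Fr.eM (algebraMap Kb (Fb M) c), Fr.eM_algebraMap_mem_Kc c, Fr.eM h, by
    rw [e, map_mul, map_pow]⟩

theorem natCast_ne_zero_L (Fr' : Frame M q B hB L) {m : ℕ} (hm : m ≠ 0) : (m : L) ≠ 0 := by
  have : CharZero (Fb (M * q)) :=
    charZero_of_injective_algebraMap (algebraMap Kb (Fb (M * q))).injective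
  have h1 : (m : L) = Fr'.e1 (m : Fb (M * q)) := (map_natCast Fr'.e1 m).symm
  rw [h1]
  exact (map_ne_zero Fr'.e1).mpr (Nat.cast_ne_zero.mpr hm)

variable [CompleteSpace L] [IsUltrametricDist L]

set_option maxHeartbeats 1000000 in
/-- **STEP A** (frame form): `q`-new ∩ `torSub (m)` ⊆ `tor# (m)`. -/
theorem mem_torSharp_of_mem_torSub (hqM : ¬ q ∣ M) (hD : DworkData q Fr.Kc Fr.N)
    (hNFα : ∀ f : Fb (M * q),
      Fr.eM (normAlong (heckeAlphaBar Kb M q) f) = Fr.e1 f * Fr.N (Fr.e2 hqM f))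
    (hNFβ : ∀ f : Fb (M * q),
      Fr.eM (normAlong (heckeBetaBar Kb M q) f) = Fr.N (Fr.e1 f) * Fr.e2 hqM f)
    (hC : I.C = compW B hB hqM) {m : ℕ} (hm : m ≠ 0)
    {x : Pic0 Kb (Fb (M * q))} (hx : x ∈ BR2.Filt.torSub I.toSetup m)
    (hα : LevelTransfer.alphaDown M q x = 0) (hβ : BR2.LevelMaps.betaDown M q x = 0) :
    x ∈ torSharp Fr hqM m := by
  obtain ⟨D, f, hR, ⟨c1, u1, hc1, hu1, h1⟩, ⟨c2, u2, hc2, hu2, h2⟩⟩ :=
    exists_oneUnit_of_mem_torSub Fr I hqM hC hm hx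
  obtain ⟨hDx, hf, hDf⟩ := id hR
  subst hDx
  -- the two norms down are constants times `m`-th powers
  obtain ⟨ha, ca, -, -, hNa⟩ := BR2.G5.exists_norm_eq_const_mul_pow (riemannPkg_bar M)
    (heckeAlphaBar Kb M q) (heckeAlphaBarIntegral M q) (finiteAlong_heckeAlphaBar M q)
    (normFormulaAlong_alpha M q) hf hDf hα
  obtain ⟨hb, cb, -, -, hNb⟩ := BR2.G5.exists_norm_eq_const_mul_pow (riemannPkg_bar M)
    (heckeBetaBar Kb M q) (heckeBetaBarIntegral M q) (finiteAlong_heckeBetaBar M q)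
    (normFormulaAlong_beta M q) hf hDf hβ
  have hA : IsCP Fr.Kc m (Fr.e1 f * Fr.N (Fr.e2 hqM f)) := by
    rw [← hNFα]; exact isCP_of_eq_const_mul_pow Fr hNa
  have hBt : IsCP Fr.Kc m (Fr.N (Fr.e1 f) * Fr.e2 hqM f) := by
    rw [← hNFβ]; exact isCP_of_eq_const_mul_pow Fr hNb
  have hf1 : Fr.e1 f ≠ 0 := (map_ne_zero Fr.e1).mpr hf
  have hf2 : Fr.e2 hqM f ≠ 0 := (map_ne_zero (Fr.e2 hqM)).mpr hf
  have hmL : (m : L) ≠ 0 := natCast_ne_zero_L Fr hm
  refine ⟨D, f, hR, ?_, ?_⟩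
  · refine dwork_core hD m hmL hf1 hf2 hA hBt
      ⟨Fr.e1 (algebraMap Kb (Fb (M * q)) c1), Fr.e1_algebraMap_mem_Kc c1, Fr.e1 u1, ?_⟩
    have e : Fr.e1 (c1 • u1 ^ m) = Fr.e1 (algebraMap Kb (Fb (M * q)) c1) * Fr.e1 u1 ^ m := by
      rw [Algebra.smul_def, map_mul, map_pow]
    rw [← e]
    exact h1
  · refine dwork_core hD m hmL hf2 hf1 (by rw [mul_comm]; exact hBt) (by rw [mul_comm]; exact hA)
      ⟨Fr.e2 hqM (algebraMap Kb (Fb (M * q)) c2), Fr.e2_algebraMap_mem_Kc hqM c2, Fr.e2 hqM u2, ?_⟩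
    have e : Fr.e2 hqM (c2 • u2 ^ m) =
        Fr.e2 hqM (algebraMap Kb (Fb (M * q)) c2) * Fr.e2 hqM u2 ^ m := by
      rw [Algebra.smul_def, map_mul, map_pow]
    rw [← e]
    exact h2

end Fermat.Agent.FF3.StepA
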