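import Mathlib
import Fermat.Agent.FF3.StepA.Defs
import Fermat.Agent.FF3.StepA.Core
import Fermat.Agent.FF3.StepA.OneUnit
import Fermat.Agent.FF3.StepA.Tor
import Fermat.Agent.FF3.StepA.Assembly

/-!
# PROGRAMME I, block A, node A7 (part 3): the frame-free export of Step A

* `approxPow_of_isCP` : `e1 f` a constant times an `m`-th power in `L`  ⟹  `ApproxPow O1 m f`
  (density of the constants in `Kc` and of the level-`M` functions in `L`);
* `approxPow_two_of_isCP` : the same at `O2` (transport by `W_q`);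
* `isTorSharpApprox_of_isTorSharp`, **`mem_torSharpApprox_of_mem_torSub`**, `stepA_approx`.
-/

set_option autoImplicit false
set_option linter.unusedSectionVars false
set_option synthInstance.maxHeartbeats 400000

noncomputable section

namespace Fermat.Agent.FF3.StepA

section Ultra

variable {L : Type*} [NormedField L] [IsUltrametricDist L]

theorem norm_le_one_of_sub_one_lt {y : L} {ε : ℝ} (hε : ε ≤ 1) (hy : ‖y - 1‖ < ε) : ‖y‖ ≤ 1 := by
  have h : y = (y - 1) + 1 := by ring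
  rw [h]
  refine (IsUltrametricDist.norm_add_le_max _ _).trans (max_le (hy.le.trans hε) ?_)
  rw [norm_one]

theorem norm_mul_sub_one_lt {x y : L} {ε : ℝ} (hε : ε ≤ 1) (hx : ‖x - 1‖ < ε)
    (hy : ‖y - 1‖ < ε) : ‖x * y - 1‖ < ε := by
  have h : x * y - 1 = (x - 1) * y + (y - 1) := by ring
  rw [h]
  refine (IsUltrametricDist.norm_add_le_max _ _).trans_lt (max_lt ?_ hy)
  rw [norm_mul]
  calc ‖x - 1‖ * ‖y‖ ≤ ‖x - 1‖ * 1 :=
        mul_le_mul_of_nonneg_left (norm_le_one_of_sub_one_lt hε hy) (norm_nonneg _)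
    _ = ‖x - 1‖ := mul_one _
    _ < ε := hx

theorem norm_pow_sub_one_lt {y : L} {ε : ℝ} (hε : ε ≤ 1) (h0 : 0 < ε) (hy : ‖y - 1‖ < ε)
    (m : ℕ) : ‖y ^ m - 1‖ < ε := by
  induction m with
  | zero => simpa using h0
  | succ k ih => rw [pow_succ]; exact norm_mul_sub_one_lt hε ih hy

end Ultra

open AlgebraicCurve ModularCurve IsLocalRing Fermat.Agent.Red Fermat.Agent.X0 Fermat.Agent.Hecke
  Fermat.Agent.Jac Fermat.Agent.Val Fermat.Agent.BR Fermat.Agent.BR.SS Fermat.Agent.BR.S0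
  Fermat.Agent.BR.TwoVal Fermat.Agent.BR.TwoValInst Fermat.Agent.BR.ConstRedTwo
  Fermat.Agent.BR.Inst.SpecIso Fermat.Agent.BR2.NormResidueModular
  Fermat.Agent.BR.S0.RedModular

variable {M q : ℕ} [NeZero M] [hq : Fact q.Prime]
  {B : ValuationSubring (AlgebraicClosure ℚ)} [IsAlgClosed (ResidueField B)]
  [CharP (ResidueField B) q]
  {hB : B.LiesOverPrime q} {hqM : ¬ q ∣ M}
  {L : Type} [NormedField L] [IsUltrametricDist L] (Fr : Frame M q B hB L) {ν : Type*}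
  (I : TwoCompInput (F := Fb (M * q)) B (residue B)
    (modularFunctionFieldFullC (ResidueField B) M) ν)

/-- density of the constants `Kb` in `Kc` -/
theorem Frame.exists_const_near {c : L} (hc : c ∈ Fr.Kc) {ε : ℝ} (hε : 0 < ε) :
    ∃ c₀ : Kb, ‖Fr.e1 (algebraMap Kb (Fb (M * q)) c₀) - c‖ < ε := by
  have h1 : c ∈ closure (((algebraMap Kb (Fb (M * q))).fieldRange.map Fr.e1 : Subfield L) : Set L) :=
    hc
  obtain ⟨b, hb, hdist⟩ := Metric.mem_closure_iff.mp h1 ε hε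
  obtain ⟨y, ⟨c₀, rfl⟩, rfl⟩ := hb
  exact ⟨c₀, by rw [← dist_eq_norm, dist_comm]; exact hdist⟩

/-- density of the level-`M` functions in `L` -/
theorem Frame.exists_fun_near (u : L) {ε : ℝ} (hε : 0 < ε) :
    ∃ u₀ : Fb M, ‖Fr.e1 (heckeAlphaBar Kb M q u₀) - u‖ < ε := by
  obtain ⟨u₀, h⟩ := Fr.dense.exists_dist_lt u hε
  exact ⟨u₀, by rw [← dist_eq_norm, dist_comm]; exact h⟩

theorem Frame.norm_q_le_one (Fr' : Frame M q B hB L) : ‖(q : L)‖ ≤ 1 := by
  have h1 : (q : L) = Fr'.e1 (q : Fb (M * q)) := (map_natCast Fr'.e1 q).symm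
  rw [h1, Fr'.norm_le_one_iff]
  exact natCast_mem _ q

theorem Frame.q_ne_zero (Fr' : Frame M q B hB L) : (q : L) ≠ 0 :=
  natCast_ne_zero_L Fr' hq.out.ne_zero

/-- **exact ⟹ approximate**, first component -/
theorem approxPow_of_isCP {m : ℕ} {f : Fb (M * q)} (hf : f ≠ 0)
    (h : IsCP Fr.Kc m (Fr.e1 f)) : ApproxPow (M := M) (q := q) (O1 M B hB) m f := by
  intro n
  obtain ⟨c, hc, u, hcu⟩ := h
  have hf1 : Fr.e1 f ≠ 0 := (map_ne_zero Fr.e1).mpr hf
  have hc0 : c ≠ 0 := by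
    rintro rfl
    rw [zero_mul] at hcu
    exact hf1 hcu
  have hum0 : u ^ m ≠ 0 := by
    intro h0
    rw [h0, mul_zero] at hcu
    exact hf1 hcu
  -- w.l.o.g. `u ≠ 0`
  obtain ⟨u, hu0, hcu⟩ : ∃ u' : L, u' ≠ 0 ∧ Fr.e1 f = c * u' ^ m := by
    by_cases hu : u = 0
    · rcases Nat.eq_zero_or_pos m with hm | hm
      · exact ⟨1, one_ne_zero, by rw [hcu, hm, pow_zero, pow_zero]⟩
      · exact absurd (by rw [hu, zero_pow hm.ne']) hum0
    · exact ⟨u, hu, hcu⟩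
  have hqL : (q : L) ≠ 0 := Fr.q_ne_zero
  set ε : ℝ := ‖(q : L)‖ ^ n with hε
  have hε0 : 0 < ε := pow_pos (norm_pos_iff.mpr hqL) n
  have hε1 : ε ≤ 1 := pow_le_one₀ (norm_nonneg _) Fr.norm_q_le_one
  obtain ⟨c₀, hc₀⟩ := Fr.exists_const_near hc (mul_pos hε0 (norm_pos_iff.mpr hc0))
  obtain ⟨u₀, hu₀⟩ := Fr.exists_fun_near u (mul_pos hε0 (norm_pos_iff.mpr hu0))
  set C : L := Fr.e1 (algebraMap Kb (Fb (M * q)) c₀) with hC
  set U : L := Fr.e1 (heckeAlphaBar Kb M q u₀) with hU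
  have ha : ‖C / c - 1‖ < ε := by
    have h1 : C / c - 1 = (C - c) / c := by rw [sub_div, div_self hc0]
    rw [h1, norm_div, div_lt_iff₀ (norm_pos_iff.mpr hc0)]
    exact hc₀
  have hb : ‖U / u - 1‖ < ε := by
    have h1 : U / u - 1 = (U - u) / u := by rw [sub_div, div_self hu0]
    rw [h1, norm_div, div_lt_iff₀ (norm_pos_iff.mpr hu0)]
    exact hu₀
  have hδ : ‖C / c * (U / u) ^ m - 1‖ < ε :=
    norm_mul_sub_one_lt hε1 ha (norm_pow_sub_one_lt hε1 hε0 hb m)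
  -- nonvanishing of the approximants
  have hC0 : C ≠ 0 := by
    intro h0
    rw [h0, zero_div, zero_sub, norm_neg, norm_one] at ha
    exact not_lt.mpr hε1 ha
  have hU0 : U ≠ 0 := by
    intro h0
    rw [h0, zero_div, zero_sub, norm_neg, norm_one] at hb
    exact not_lt.mpr hε1 hb
  have hc₀0 : c₀ ≠ 0 := by
    rintro rfl
    apply hC0
    rw [hC, map_zero, map_zero]
  have hu₀0 : heckeAlphaBar Kb M q u₀ ≠ 0 := by
    intro h0
    apply hU0
    rw [hU, h0, map_zero]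
  -- the witness
  have hq0 : (q : Fb (M * q)) ≠ 0 := q_ne_zero_Fb'
  have hqn0 : (q : Fb (M * q)) ^ n ≠ 0 := pow_ne_zero n hq0
  set g : Fb (M * q) := c₀ • heckeAlphaBar Kb M q u₀ ^ m with hg
  set z : Fb (M * q) := (g / f - 1) / (q : Fb (M * q)) ^ n with hz
  have heg0 : Fr.e1 g = C * U ^ m := by
    rw [hg, Algebra.smul_def, map_mul, map_pow]
  have heg : Fr.e1 g = Fr.e1 f * (C / c * (U / u) ^ m) := by
    rw [heg0, hcu, div_pow]
    field_simp
  have hez : Fr.e1 z = (C / c * (U / u) ^ m - 1) / (q : L) ^ n := by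
    rw [hz, map_div₀, map_sub, map_div₀, map_one, map_pow, map_natCast, heg,
      mul_div_cancel_left₀ _ hf1]
  have hzO : z ∈ O1 M B hB := by
    rw [← Fr.norm_le_one_iff, hez, norm_div, norm_pow]
    exact (div_le_one hε0).mpr hδ.le
  refine ⟨c₀, heckeAlphaBar Kb M q u₀, hc₀0, hu₀0, z, hzO, ?_⟩
  show g = f * (1 + (q : Fb (M * q)) ^ n * z)
  rw [hz]
  field_simp
  ring

/-- transport of `ApproxPow` by the Atkin–Lehner involution: `O1` at `W_q f` gives `O2` at `f` -/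
theorem approxPow_two_of_Wq (hqM : ¬ q ∣ M) {m : ℕ} {f : Fb (M * q)}
    (h : ApproxPow (M := M) (q := q) (O1 M B hB) m (Wq hqM f)) :
    ApproxPow (M := M) (q := q) (O2 B hB hqM) m f := by
  intro n
  obtain ⟨c, u, hc, hu, z, hz, e⟩ := h n
  refine ⟨c, Wq hqM u, hc, (map_ne_zero (Wq hqM)).mpr hu, Wq hqM z,
    (Wq_mem_O2_iff B hB hqM).mpr hz, ?_⟩
  have e' := congrArg (Wq hqM) e
  rw [Algebra.smul_def, map_mul, AlgEquiv.commutes, map_pow, map_mul, Wq_Wq, map_add, map_one,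
    map_mul, map_pow, map_natCast] at e'
  rw [Algebra.smul_def]
  exact e'

/-- **exact ⟹ approximate**, second component -/
theorem approxPow_two_of_isCP (hqM : ¬ q ∣ M) {m : ℕ} {f : Fb (M * q)} (hf : f ≠ 0)
    (h : IsCP Fr.Kc m (Fr.e2 hqM f)) : ApproxPow (M := M) (q := q) (O2 B hB hqM) m f :=
  approxPow_two_of_Wq hqM
    (approxPow_of_isCP Fr ((map_ne_zero (Wq hqM)).mpr hf) h)

/-- frame form of `tor#` ⟹ frame-free form -/
theorem isTorSharpApprox_of_isTorSharp (hqM : ¬ q ∣ M) {m : ℕ} {x : Pic0 Kb (Fb (M * q))}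
    (h : IsTorSharp Fr hqM m x) : IsTorSharpApprox (B := B) (hB := hB) hqM m x := by
  obtain ⟨D, f, hR, h1, h2⟩ := h
  exact ⟨D, f, hR, approxPow_of_isCP Fr hR.2.1 h1, approxPow_two_of_isCP Fr hqM hR.2.1 h2⟩

theorem torSharp_le_torSharpApprox (hqM : ¬ q ∣ M) (m : ℕ) :
    torSharp Fr hqM m ≤ torSharpApprox hB hqM m :=
  fun _ hx => isTorSharpApprox_of_isTorSharp Fr hqM hx

variable [CompleteSpace L]

/-- **STEP A, frame-free form**: `q`-new ∩ `torSub (m)` ⊆ frame-free `tor# (m)`. -/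
theorem mem_torSharpApprox_of_mem_torSub (hqM : ¬ q ∣ M) (hD : DworkData q Fr.Kc Fr.N)
    (hNFα : ∀ f : Fb (M * q),
      Fr.eM (normAlong (heckeAlphaBar Kb M q) f) = Fr.e1 f * Fr.N (Fr.e2 hqM f))
    (hNFβ : ∀ f : Fb (M * q),
      Fr.eM (normAlong (heckeBetaBar Kb M q) f) = Fr.N (Fr.e1 f) * Fr.e2 hqM f)
    (hC : I.C = compW B hB hqM) {m : ℕ} (hm : m ≠ 0)
    {x : Pic0 Kb (Fb (M * q))} (hx : x ∈ BR2.Filt.torSub I.toSetup m)
    (hα : LevelTransfer.alphaDown M q x = 0) (hβ : BR2.LevelMaps.betaDown M q x = 0) :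
    x ∈ torSharpApprox hB hqM m :=
  torSharp_le_torSharpApprox Fr hqM m
    (mem_torSharp_of_mem_torSub Fr I hqM hD hNFα hNFβ hC hm hx hα hβ)

end Fermat.Agent.FF3.StepA
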