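import Mathlib
import Fermat.Agent.FF3.StepA.Export
import Fermat.Agent.FF3.FrameL.Api
import Fermat.Agent.FF3.StepA5.Final

/-!
# PROGRAMME I, block A, FINAL: Step A (the Dwork contraction), hypothesis-free

Integration of the nodes of block A:

* (A0) `StepA.dwork_core` (helper27, on helper21's `NormContr.mem_of_contraction`),
* (A1) `FrameL.exists_frame` (helper21),
* (A2)+(A3) `StepA2.eM_normAlong_alpha/_beta`, `finrank_phi`, `norm_sum_theta` (helper7),
* (A4) `StepA4.Frame.exists_kron` (helper19),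
* (A5) `StepA5.frame_dworkData` (helper23),
* (A6)+(A7) `StepA.exists_oneUnit_of_mem_torSub`, `mem_torSharp_of_mem_torSub`,
  `mem_torSharpApprox_of_mem_torSub` (helper27).

Result: for `q ∤ M`, every class of `torSub (m)` killed by `α_*` and `β_*` lies in `tor# (m)`:
in the frame form (`stepA`), and in the frame-free form (`stepA_mem`, `stepA_approx`), which
mentions only objects of main.
-/

set_option autoImplicit false
set_option linter.unusedSectionVars false
set_option linter.unusedVariables false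
set_option synthInstance.maxHeartbeats 400000

noncomputable section

namespace Fermat.Agent.FF3.StepA

open AlgebraicCurve ModularCurve IsLocalRing Fermat.Agent.Red Fermat.Agent.X0 Fermat.Agent.Hecke
  Fermat.Agent.Jac Fermat.Agent.Val Fermat.Agent.BR Fermat.Agent.BR.SS Fermat.Agent.BR.S0
  Fermat.Agent.BR.TwoVal Fermat.Agent.BR.TwoValInst Fermat.Agent.BR.ConstRedTwo
  Fermat.Agent.BR.Inst.SpecIso Fermat.Agent.BR2.NormResidueModular
  Fermat.Agent.BR.S0.RedModular

variable {M q : ℕ} [NeZero M] [hq : Fact q.Prime]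
  {B : ValuationSubring (AlgebraicClosure ℚ)} [IsAlgClosed (ResidueField B)]
  [CharP (ResidueField B) q]
  {hB : B.LiesOverPrime q} {ν : Type*}
  (I : TwoCompInput (F := Fb (M * q)) B (residue B)
    (modularFunctionFieldFullC (ResidueField B) M) ν)

/-- **STEP A** (frame form): `q`-new ∩ `torSub (m)` ⊆ `tor# (m)`, any frame, any `m ≠ 0`. -/
theorem stepA {L : Type} [NormedField L] [CompleteSpace L] [IsUltrametricDist L]
    (Fr : Frame M q B hB L) (hqM : ¬ q ∣ M) (hC : I.C = compW B hB hqM) {m : ℕ} (hm : m ≠ 0)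
    {x : Pic0 Kb (Fb (M * q))} (hx : x ∈ BR2.Filt.torSub I.toSetup m)
    (hα : LevelTransfer.alphaDown M q x = 0) (hβ : BR2.LevelMaps.betaDown M q x = 0) :
    x ∈ torSharp Fr hqM m :=
  mem_torSharp_of_mem_torSub Fr I hqM (StepA5.frame_dworkData hqM Fr)
    (StepA2.eM_normAlong_alpha hqM Fr) (StepA2.eM_normAlong_beta hqM Fr) hC hm hx hα hβ

/-- **STEP A, frame-free form** (what Step B consumes): no frame in the statement. -/
theorem stepA_mem (hqM : ¬ q ∣ M) (hC : I.C = compW B hB hqM) {m : ℕ}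
    (hm : m ≠ 0) {x : Pic0 Kb (Fb (M * q))} (hx : x ∈ BR2.Filt.torSub I.toSetup m)
    (hα : LevelTransfer.alphaDown M q x = 0) (hβ : BR2.LevelMaps.betaDown M q x = 0) :
    x ∈ torSharpApprox hB hqM m := by
  obtain ⟨L', i1, i2, i3, ⟨Fr'⟩⟩ := FrameL.exists_frame M q B hB hqM
  exact torSharp_le_torSharpApprox Fr' hqM m (stepA I Fr' hqM hC hm hx hα hβ)

/-- the same, unfolded, at `m = q ^ k` -/
theorem stepA_approx (hqM : ¬ q ∣ M) (hC : I.C = compW B hB hqM) (k : ℕ)
    {x : Pic0 Kb (Fb (M * q))} (hx : x ∈ BR2.Filt.torSub I.toSetup (q ^ k))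
    (hα : LevelTransfer.alphaDown M q x = 0) (hβ : BR2.LevelMaps.betaDown M q x = 0) :
    ∃ (D : Divisor.degZero (K := Kb) (F := Fb (M * q))) (f : Fb (M * q)),
      BR2.Filt.IsRep (q ^ k) x D f ∧ ApproxPow (M := M) (q := q) (O1 M B hB) (q ^ k) f ∧
        ApproxPow (M := M) (q := q) (O2 B hB hqM) (q ^ k) f :=
  stepA_mem I hqM hC (pow_ne_zero k hq.out.ne_zero) hx hα hβ

end Fermat.Agent.FF3.StepA
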