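import Mathlib
import Fermat.Agent.FF3.StepA.Tor
import Fermat.Agent.FF3.StepA8.Galois

/-!
# PROGRAMME I, block A, node A8 at the honest subgroups `torSharp`, `torSharpApprox`

The contract literals `Frame.exists_galois`, `smul_mem_torSharp`, `smul_mem_torSharpApprox` as
one-line corollaries of helper6's `FF3/StepA8/Galois.lean` (`exists_galois`, `isTorSharp_smul`,
`isTorSharpApprox_smul`), now against the real subgroups of `FF3/StepA/Tor.lean`.
-/

set_option autoImplicit false
set_option linter.unusedSectionVars false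
set_option linter.unusedVariables false
set_option synthInstance.maxHeartbeats 400000

noncomputable section

namespace Fermat.Agent.FF3.StepA

open AlgebraicCurve ModularCurve IsLocalRing Fermat.Agent.Red Fermat.Agent.X0 Fermat.Agent.Hecke
  Fermat.Agent.Jac Fermat.Agent.Val Fermat.Agent.BR Fermat.Agent.BR.TwoVal
  Fermat.Agent.BR.ValTwo Fermat.Agent.BR.GaloisTwo

variable {M q : ℕ} [NeZero M] [hq : Fact q.Prime]
  {B : ValuationSubring (AlgebraicClosure ℚ)} [IsAlgClosed (ResidueField B)]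
  [CharP (ResidueField B) q]
  {hB : B.LiesOverPrime q}
  {L : Type} [NormedField L] [CompleteSpace L] [IsUltrametricDist L] (Fr : Frame M q B hB L)
  {σ : Kb ≃ₐ[ℚ] Kb}

/-- (A-gal) the decomposition group of `B` acts on the frame by isometries. -/
theorem Frame.exists_galois (hqM : ¬ q ∣ M) (hσ : σ ∈ B.decompositionSubgroup ℚ) :
    ∃ τ : L ≃+* L, (∀ y : L, ‖τ y‖ = ‖y‖) ∧
      (∀ x : Fb (M * q), τ (Fr.e1 x) = Fr.e1 (Fermat.Agent.BR.ValTwo.gal (M * q) σ • x)) ∧
      (∀ x : Fb (M * q), τ (Fr.e2 hqM x) = Fr.e2 hqM (Fermat.Agent.BR.ValTwo.gal (M * q) σ • x)) ∧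
      (∀ y : L, τ (Fr.φ y) = Fr.φ (τ y)) ∧ ∀ y ∈ Fr.Kc, τ y ∈ Fr.Kc :=
  StepA8.exists_galois (hqM := hqM) Fr hσ

/-- (A-gal') `tor#` (frame form) is stable under the decomposition group of `B`. -/
theorem smul_mem_torSharp (hqM : ¬ q ∣ M) (hσ : σ ∈ B.decompositionSubgroup ℚ) (m : ℕ)
    {x : JZero (M * q)} (hx : x ∈ torSharp Fr hqM m) : σ • x ∈ torSharp Fr hqM m :=
  StepA8.isTorSharp_smul Fr hσ m hx

omit [CompleteSpace L] [IsUltrametricDist L] in
/-- frame-free `tor#` is stable under the decomposition group of `B`. -/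
theorem smul_mem_torSharpApprox (hqM : ¬ q ∣ M) (hσ : σ ∈ B.decompositionSubgroup ℚ) (m : ℕ)
    {x : JZero (M * q)} (hx : x ∈ torSharpApprox hB hqM m) :
    σ • x ∈ torSharpApprox hB hqM m :=
  StepA8.isTorSharpApprox_smul hσ m hx

end Fermat.Agent.FF3.StepA
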