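import Mathlib
import Fermat.Agent.FF3.StepA.Final
import Fermat.Agent.FF3.StepA.GaloisFinal
import Fermat.Agent.BR2.GeoLevel

/-!
# PROGRAMME I, block A: Step A in the dialect of `BR2/GeoLevel` (`Dt : Final.ModularData`)

`stepA_of_data` : for `Dt : ModularData M q B hB hqM`, `m ≠ 0`,
`x ∈ torSub (setup Dt) m`, `α_* x = 0`, `β_* x = 0` ⟹ `x ∈ torSharpApprox hB hqM m`.
This is the literal consumed by the top assembly `TorEps` (block P / T-chain).
-/

set_option autoImplicit false
set_option linter.unusedSectionVars false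
set_option linter.unusedVariables false
set_option linter.style.haveILetI false
set_option synthInstance.maxHeartbeats 400000

noncomputable section

namespace Fermat.Agent.FF3.StepA

open ModularCurve AlgebraicCurve IsLocalRing Fermat.Agent.Red Fermat.Agent.X0 Fermat.Agent.Hecke
  Fermat.Agent.BR.ValTwo Fermat.Agent.BR.SS Fermat.Agent.BR.Refine
  Fermat.Agent.BR.S0 Fermat.Agent.BR.S0.RedModular Fermat.Agent.BR.S0.PointDict
  Fermat.Agent.BR.Final Fermat.Agent.BR2.SetupOfData Fermat.Agent.BR.TwoVal Fermat.Agent.Jac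
  Fermat.Agent.BR

variable {M q : ℕ} [NeZero M] [hq : Fact q.Prime]
variable {B : ValuationSubring Kb} {hB : B.LiesOverPrime q} {hqM : ¬ q ∣ M}
variable [IsAlgClosed (ResidueField B)]

variable (Dt : ModularData M q B hB hqM)

/-- **STEP A on the setup of the data**, frame-free form. -/
theorem stepA_of_data {m : ℕ} (hm : m ≠ 0) {x : JZero (M * q)}
    (hx : x ∈ BR2.Filt.torSub (setup Dt) m)
    (hα : LevelTransfer.alphaDown M q x = 0) (hβ : BR2.LevelMaps.betaDown M q x = 0) :
    haveI := BR2.ResInst.charP_res q B hB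
    x ∈ torSharpApprox hB hqM m := by
  haveI := BR2.ResInst.charP_res q B hB
  exact stepA_mem (input Dt) hqM rfl hm hx hα hβ

/-- the same, unfolded at `m = q ^ k`. -/
theorem stepA_approx_of_data (k : ℕ) {x : JZero (M * q)}
    (hx : x ∈ BR2.Filt.torSub (setup Dt) (q ^ k))
    (hα : LevelTransfer.alphaDown M q x = 0) (hβ : BR2.LevelMaps.betaDown M q x = 0) :
    ∃ (D : Divisor.degZero (K := Kb) (F := Fb (M * q))) (f : Fb (M * q)),
      BR2.Filt.IsRep (q ^ k) x D f ∧ ApproxPow (M := M) (q := q) (O1 M B hB) (q ^ k) f ∧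
        ApproxPow (M := M) (q := q) (O2 B hB hqM) (q ^ k) f := by
  haveI := BR2.ResInst.charP_res q B hB
  exact stepA_approx (input Dt) hqM rfl k hx hα hβ

end Fermat.Agent.FF3.StepA
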